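import Mathlib
import Fermat.Prelude.Def_GaloisRep_Residual
import Fermat.Prelude.Def_Deformations_MatrixRepresentation

/-!
# Project S48 (Deligne-Serre): first level interface

Every `def ...Statement : Prop` below is the export of ONE module of the project; the file
`Fermat/Agent/S48/Top.lean` proves `S48` from them.

* `MSStatement`      (module S48-MS)    Rankin's estimate `∑ |a_p|² p^{-s} ≤ log (1/(s-1)) + C`
* `ConjStatement`    (module S48-RAT)   `f^σ` is again a cusp form on `Γ₁(N)`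
* `AlgStatement`     (module S48-RAT)   the `a_p` lie in a number field, with bounded denominators
* `NebStatement`, `DeplStatement` (module S48-HECKE)  nebentypus, `N`-depletion
* `EisStatement`     (module S48-EIS)   weight one Eisenstein series `≡ 1 mod λ` on `Γ₁(ℓ)`
* `G1MainStatement`  (module G1 = port of GR to `Γ₁(M)`)  mod `λ` Galois module of a mod `λ`
                                        eigenform of weight two on `Γ₁(M)`
* `ChebStatement`    (module S48-CHEB)  Chebotarev, Dirichlet density, lower bound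
* `EndStatement`     (module S48-END)   the endgame: pure algebra + density bookkeeping
-/

set_option autoImplicit false

open CongruenceSubgroup UpperHalfPlane
open scoped MatrixGroups ModularForm

namespace Fermat.Agent.S48

/-- `ℚ̄`. -/
abbrev Qb : Type := AlgebraicClosure ℚ

/-- The absolute Galois group of `ℚ`. -/
abbrev GQ : Type := Qb ≃ₐ[ℚ] Qb

/-- The residue field of a place of `ℚ̄`. -/
abbrev kk (Λ : ValuationSubring Qb) : Type := IsLocalRing.ResidueField Λ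

open Classical in
/-- Reduction modulo the place `Λ` (junk value `0` at non-integral elements). -/
noncomputable def res (Λ : ValuationSubring Qb) (x : Qb) : kk Λ :=
  if h : x ∈ Λ then IsLocalRing.residue Λ ⟨x, h⟩ else 0

/-- The hypotheses of S48. -/
structure Hyp (N : ℕ) [NeZero N] (ε : DirichletCharacter ℂ N) (f : CuspForm (Gamma1 N) 1) :
    Prop where
  one : ModularFormClass.qCoeff f 1 = 1
  hecke : ∀ p : ℕ, p.Prime → ¬ p ∣ N → ∀ n : ℕ,
    ModularFormClass.qCoeff f (p * n) +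
        ε (p : ZMod N) * (if p ∣ n then ModularFormClass.qCoeff f (n / p) else 0) =
      ModularFormClass.qCoeff f p * ModularFormClass.qCoeff f n

/-- The conclusion of S48 for a system of "eigenvalues" `a p`, `e p` in `ℂ`. -/
def ConclC (N : ℕ) (a e : ℕ → ℂ) : Prop :=
  ∃ ρ : GQ →* GL (Fin 2) ℂ, GaloisFactorsThroughFiniteLevel ρ ∧
    (Deformation.matrixRepresentation ρ).IsIrreducible ∧
    ∀ p : ℕ, p.Prime → ¬ p ∣ N →
      ∀ A : ValuationSubring Qb, A.LiesOverPrime p →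
        (∀ σ ∈ A.inertiaSubgroupIn ℚ, ρ σ = 1) ∧
        ∀ σ : GQ, A.IsFrobeniusAt σ p →
          ((ρ σ : GL (Fin 2) ℂ) : Matrix (Fin 2) (Fin 2) ℂ).trace = a p ∧
          ((ρ σ : GL (Fin 2) ℂ) : Matrix (Fin 2) (Fin 2) ℂ).det = e p

/-- "`∑_{p ∈ P} w p · p^{-s} ≤ c · log (1/(s-1)) + C` as `s → 1⁺`", without any summability:
all finite partial sums over primes satisfying `P` are bounded. -/
def DirichletLe (P : ℕ → Prop) (w : ℕ → ℝ) (c : ℝ) : Prop :=
  ∃ C : ℝ, ∀ s : ℝ, 1 < s → s ≤ 2 → ∀ F : Finset ℕ, (∀ p ∈ F, p.Prime ∧ P p) →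
    ∑ p ∈ F, w p * (p : ℝ) ^ (-s) ≤ c * Real.log (1 / (s - 1)) + C

/-- "`∑_{p ∈ P} p^{-s} ≥ c · log (1/(s-1)) - B` as `s → 1⁺`": some finite partial sum is large. -/
def DirichletGe (P : ℕ → Prop) (c : ℝ) : Prop :=
  ∃ B : ℝ, ∀ s : ℝ, 1 < s → s ≤ 2 → ∃ F : Finset ℕ, (∀ p ∈ F, p.Prime ∧ P p) ∧
    c * Real.log (1 / (s - 1)) - B ≤ ∑ p ∈ F, (p : ℝ) ^ (-s)

/-! ### Module S48-MS -/

/-- **Rankin's estimate.** -/
def MSStatement : Prop :=
  ∀ (N : ℕ) [NeZero N] (ε : DirichletCharacter ℂ N) (f : CuspForm (Gamma1 N) 1), Hyp N ε f →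
    DirichletLe (fun p => ¬ p ∣ N) (fun p => ‖ModularFormClass.qCoeff f p‖ ^ 2) 1

/-! ### Module S48-RAT -/

/-- **Conjugation of cusp forms of weight one on `Γ₁(N)`** by automorphisms of `ℂ`. -/
def ConjStatement : Prop :=
  ∀ (N : ℕ) [NeZero N] (f : CuspForm (Gamma1 N) 1) (σ : ℂ ≃+* ℂ),
    ∃ f' : CuspForm (Gamma1 N) 1, ∀ n : ℕ,
      ModularFormClass.qCoeff f' n = σ (ModularFormClass.qCoeff f n)

/-- **Algebraicity**: the `a_p` lie in a number field and have a common denominator. -/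
def AlgStatement : Prop :=
  ∀ (N : ℕ) [NeZero N] (ε : DirichletCharacter ℂ N) (f : CuspForm (Gamma1 N) 1), Hyp N ε f →
    ∀ ι : Qb →+* ℂ, ∃ (a : ℕ → Qb) (K : IntermediateField ℚ Qb) (D : ℕ),
      FiniteDimensional ℚ K ∧ D ≠ 0 ∧ ∀ p : ℕ, p.Prime → ¬ p ∣ N →
        ι (a p) = ModularFormClass.qCoeff f p ∧ a p ∈ K ∧ IsIntegral ℤ ((D : Qb) * a p)

/-- Rankin's estimate for all the conjugates (`= MSStatement + ConjStatement`). -/
def RankinStatement : Prop :=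
  ∀ (N : ℕ) [NeZero N] (ε : DirichletCharacter ℂ N) (f : CuspForm (Gamma1 N) 1), Hyp N ε f →
    ∀ (ι : Qb →+* ℂ) (a : ℕ → Qb),
      (∀ p : ℕ, p.Prime → ¬ p ∣ N → ι (a p) = ModularFormClass.qCoeff f p) →
      ∀ j : Qb →+* ℂ, DirichletLe (fun p => ¬ p ∣ N) (fun p => ‖j (a p)‖ ^ 2) 1

/-! ### Module S48-HECKE -/

/-- `f` has nebentypus `χ` (a function on `ZMod N`): `f ∣[k] γ = χ(d) f` for `γ ∈ Γ₀(N)`. -/
def HasNeb (N : ℕ) (k : ℤ) (χ : ZMod N → ℂ) (f : ℍ → ℂ) : Prop :=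
  ∀ γ : SL(2, ℤ), γ ∈ Gamma0 N → f ∣[k] γ = χ ((γ 1 1 : ℤ) : ZMod N) • f

/-- **Nebentypus lemma.** -/
def NebStatement : Prop :=
  ∀ (N : ℕ) [NeZero N] (ε : DirichletCharacter ℂ N) (f : CuspForm (Gamma1 N) 1), Hyp N ε f →
    HasNeb N 1 ε f

/-- **`N`-depletion.** -/
def DeplStatement : Prop :=
  ∀ (N : ℕ) [NeZero N] (ε : DirichletCharacter ℂ N) (f : CuspForm (Gamma1 N) 1), HasNeb N 1 ε f →
    ∃ (N' : ℕ) (_ : N ∣ N') (f' : CuspForm (Gamma1 N') 1), N' ≠ 0 ∧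
      (∀ p : ℕ, p.Prime → p ∣ N' → p ∣ N) ∧
      HasNeb N' 1 (fun x => ε (ZMod.castHom ‹N ∣ N'› (ZMod N) x)) f' ∧
      ∀ n : ℕ, ModularFormClass.qCoeff f' n =
        if n.Coprime N then ModularFormClass.qCoeff f n else 0

/-! ### Module S48-EIS -/

/-- **The Eisenstein series of weight one `≡ 1 mod λ`.** -/
def EisStatement : Prop :=
  ∀ (ι : Qb →+* ℂ) (ℓ : ℕ), ℓ.Prime → 5 ≤ ℓ → ∀ Λ : ValuationSubring Qb, Λ.LiesOverPrime ℓ →
    ∃ (E : ModularForm (Gamma1 ℓ) 1) (ψ : DirichletCharacter Qb ℓ) (c : ℕ → Qb),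
      HasNeb ℓ 1 (fun x => ι (ψ x)) E ∧
      (∀ n : ℕ, ι (c n) = ModularFormClass.qCoeff E n) ∧ c 0 = 1 ∧
      (∀ n : ℕ, n ≠ 0 → c n ∈ Λ.nonunits) ∧
      ∀ p : ℕ, ¬ ℓ ∣ p → (p : Qb) * ψ (p : ZMod ℓ) - 1 ∈ Λ.nonunits

/-! ### Module G1 -/

/-- A nonzero finite dimensional `k_Λ`-vector space with an action of `G_ℚ` of finite level,
unramified outside `M ℓ`, on which the Frobenius elements at `p ∤ M ℓ` satisfy
`X² - t_p X + d_p = 0`. -/
def HasQuadModule (M ℓ : ℕ) (Λ : ValuationSubring Qb) (t d : ℕ → Qb) : Prop :=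
  ∃ (W : Type) (_ : AddCommGroup W) (_ : Module (kk Λ) W) (_ : Module.Finite (kk Λ) W)
    (_ : Nontrivial W) (r : GQ →* Module.End (kk Λ) W),
    GaloisFactorsThroughFiniteLevel r ∧
    ∀ p : ℕ, p.Prime → ¬ p ∣ M * ℓ → ∀ A : ValuationSubring Qb, A.LiesOverPrime p →
      (∀ σ ∈ A.inertiaSubgroupIn ℚ, r σ = 1) ∧
      ∀ σ : GQ, A.IsFrobeniusAt σ p →
        r σ * r σ - res Λ (t p) • r σ + res Λ (d p) • (1 : Module.End (kk Λ) W) = 0

/-- **Main theorem of the port of GR to `Γ₁(M)`**: a cusp form of weight two on `Γ₁(M)` with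
nebentypus `χ`, `Λ`-integral and nonzero mod `Λ`, which is an eigenform mod `Λ` of the `T_p`
(`p ∤ M`, formal definition on `q`-expansions) with eigenvalues `t_p`, has a mod `Λ` Galois
module. -/
def G1MainStatement : Prop :=
  ∀ (M : ℕ) [NeZero M] (g : CuspForm (Gamma1 M) 2) (χ : DirichletCharacter Qb M)
    (ι : Qb →+* ℂ) (b t : ℕ → Qb) (ℓ : ℕ) (Λ : ValuationSubring Qb),
    ℓ.Prime → Λ.LiesOverPrime ℓ → HasNeb M 2 (fun x => ι (χ x)) g →
    (∀ n : ℕ, ι (b n) = ModularFormClass.qCoeff g n) → (∀ n : ℕ, b n ∈ Λ) →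
    (∃ n : ℕ, b n ∉ Λ.nonunits) → (∀ p : ℕ, t p ∈ Λ) →
    (∀ p : ℕ, p.Prime → ¬ p ∣ M → ∀ n : ℕ,
      b (p * n) + (p : Qb) * χ (p : ZMod M) * (if p ∣ n then b (n / p) else 0) - t p * b n
        ∈ Λ.nonunits) →
    HasQuadModule M ℓ Λ t (fun p => (p : Qb) * χ (p : ZMod M))

/-- The geometric input of the endgame
(`= Neb + Depl + Eis + G1Main + Alg`, see `Fermat/Agent/S48/Geo.lean`). -/
def GeoStatement : Prop :=
  ∀ (N : ℕ) [NeZero N] (ε : DirichletCharacter ℂ N) (f : CuspForm (Gamma1 N) 1), Hyp N ε f →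
    ∀ (ι : Qb →+* ℂ) (a : ℕ → Qb) (e : DirichletCharacter Qb N),
      (∀ p : ℕ, p.Prime → ¬ p ∣ N → ι (a p) = ModularFormClass.qCoeff f p) →
      (∀ x : ZMod N, ι (e x) = ε x) →
      ∃ B : ℕ, ∀ ℓ : ℕ, ℓ.Prime → B < ℓ → ∀ Λ : ValuationSubring Qb, Λ.LiesOverPrime ℓ →
        HasQuadModule N ℓ Λ a (fun p => e (p : ZMod N))

/-! ### Module S48-CHEB -/

/-- Some Frobenius element at `p` is mapped into `T` by `r`. -/
def FrobIn {G : Type} [Group G] (r : GQ →* G) (T : Set G) (p : ℕ) : Prop :=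
  ∃ (A : ValuationSubring Qb) (σ : GQ), A.LiesOverPrime p ∧ A.IsFrobeniusAt σ p ∧ r σ ∈ T

/-- **Chebotarev's density theorem**, lower bound, Dirichlet density, for subsets stable under
conjugation and inversion. -/
def ChebStatement : Prop :=
  ∀ (G : Type) [Group G] [Finite G] (r : GQ →* G), GaloisFactorsThroughFiniteLevel r →
    Function.Surjective r → ∀ T : Set G, (∀ g h : G, g ∈ T → h * g * h⁻¹ ∈ T) →
    (∀ g ∈ T, g⁻¹ ∈ T) → ∀ (S : Finset ℕ) (δ : ℝ), 0 < δ →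
      DirichletGe (fun p => p ∉ S ∧ FrobIn r T p) ((Nat.card T : ℝ) / Nat.card G - δ)

/-! ### Module S48-END -/

/-- The purely arithmetic data extracted from the modular form. -/
structure ArithData (N : ℕ) [NeZero N] where
  a : ℕ → Qb
  e : DirichletCharacter Qb N
  K : IntermediateField ℚ Qb
  finK : FiniteDimensional ℚ K
  D : ℕ
  D_ne : D ≠ 0
  mem : ∀ p : ℕ, p.Prime → ¬ p ∣ N → a p ∈ K
  int : ∀ p : ℕ, p.Prime → ¬ p ∣ N → IsIntegral ℤ ((D : Qb) * a p)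
  rankin : ∀ j : Qb →+* ℂ, DirichletLe (fun p => ¬ p ∣ N) (fun p => ‖j (a p)‖ ^ 2) 1
  geo : ∃ B : ℕ, ∀ ℓ : ℕ, ℓ.Prime → B < ℓ → ∀ Λ : ValuationSubring Qb, Λ.LiesOverPrime ℓ →
    HasQuadModule N ℓ Λ a (fun p => e (p : ZMod N))

/-- **The endgame.** -/
def EndStatement : Prop :=
  ChebStatement → ∀ (N : ℕ) [NeZero N] (X : ArithData N) (ι : Qb →+* ℂ),
    ConclC N (fun p => ι (X.a p)) (fun p => ι (X.e (p : ZMod N)))

/-- Dirichlet characters with values in `ℂ` come from `ℚ̄`. -/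
def CharLiftStatement : Prop :=
  ∀ (N : ℕ) [NeZero N] (ε : DirichletCharacter ℂ N) (ι : Qb →+* ℂ),
    ∃ e : DirichletCharacter Qb N, ∀ x : ZMod N, ι (e x) = ε x

end Fermat.Agent.S48
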