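import Fermat.Agent.S48.Frozen
import Fermat.Agent.S48.MS.Export
import Fermat.Agent.S48.Eis.Export
import Fermat.Agent.S48.Rat.Rankin
import Fermat.Agent.S48.Rat.Alg
import Fermat.Agent.S48.Geo.Main
import Fermat.Agent.S48.Geo.CharLift
import Fermat.Agent.S48.Hecke.Depl
import Fermat.Agent.S48.Hecke.Neb
import Fermat.Agent.S48.Cheb.Gal.Export
import Fermat.Agent.S48.End.Main

/-!
# Project S48: everything except `G1MainStatement`
-/

set_option autoImplicit false

namespace Fermat.Agent.S48

/-- **S48 from the main theorem of G1.** -/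
theorem S48_of_g1 (hG1 : G1MainStatement) : S48Statement :=
  S48_of (Rat.alg_of Hecke.neb Hecke.depl) (Rat.rankin_of Hecke.neb MS.msStatement)
    (Geo.geo_of Hecke.neb Hecke.depl Eis.eisStatement hG1 (Rat.alg_of Hecke.neb Hecke.depl))
    Cheb.chebStatement End.endStatement Geo.charLift

end Fermat.Agent.S48
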