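import Fermat.Agent.S48.Iface

/-!
# Project S48: top level wiring (hypothesis form)
-/

set_option autoImplicit false

open CongruenceSubgroup UpperHalfPlane
open scoped MatrixGroups ModularForm

namespace Fermat.Agent.S48

/-- The statement of S48. -/
def S48Statement : Prop :=
  ∀ (N : ℕ) [NeZero N] (ε : DirichletCharacter ℂ N) (f : CuspForm (Gamma1 N) 1), Hyp N ε f →
    ConclC N (fun p => ModularFormClass.qCoeff f p) (fun p => ε (p : ZMod N))

theorem conclC_congr {N : ℕ} {a a' e e' : ℕ → ℂ} (h : ConclC N a e)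
    (ha : ∀ p : ℕ, p.Prime → ¬ p ∣ N → a p = a' p) (he : ∀ p : ℕ, e p = e' p) :
    ConclC N a' e' := by
  obtain ⟨ρ, h1, h2, h3⟩ := h
  refine ⟨ρ, h1, h2, fun p hp hpN A hA => ⟨(h3 p hp hpN A hA).1, fun σ hσ => ?_⟩⟩
  rw [← ha p hp hpN, ← he p]
  exact (h3 p hp hpN A hA).2 σ hσ

/-- **S48 from the exports of the modules.** -/
theorem S48_of (hAlg : AlgStatement) (hRankin : RankinStatement) (hGeo : GeoStatement)
    (hCheb : ChebStatement) (hEnd : EndStatement) (hChar : CharLiftStatement) : S48Statement := by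
  intro N _ ε f hf
  have : Algebra.IsAlgebraic ℚ Qb := AlgebraicClosure.isAlgebraic ℚ
  obtain ⟨ι⟩ : Nonempty (Qb →+* ℂ) := ⟨(IsAlgClosed.lift : Qb →ₐ[ℚ] ℂ).toRingHom⟩
  obtain ⟨a, K, D, hK, hD, ha⟩ := hAlg N ε f hf ι
  obtain ⟨e, he⟩ := hChar N ε ι
  have ha1 : ∀ p : ℕ, p.Prime → ¬ p ∣ N → ι (a p) = ModularFormClass.qCoeff f p :=
    fun p hp hpN => (ha p hp hpN).1
  let X : ArithData N :=
    { a := a, e := e, K := K, finK := hK, D := D, D_ne := hD
      mem := fun p hp hpN => (ha p hp hpN).2.1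
      int := fun p hp hpN => (ha p hp hpN).2.2
      rankin := hRankin N ε f hf ι a ha1
      geo := hGeo N ε f hf ι a e ha1 he }
  exact conclC_congr (hEnd hCheb N X ι) ha1 (fun p => he _)

end Fermat.Agent.S48
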